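import Mathlib
import Fermat.Agent.LT.T7.H193.KillSpec

/-!
# Row LT, tower T7, node T7.L2.1 `SupplyC`, sub-station NATURAL, leaf NAT.4 = `NatEKC`
(helper646, registry row 2201) -- OFF-MAIN

`natEKC646 K : H193.NatEKC K`, VERBATIM vs `LT/T7/H193/KillSpec.lean` (sha256 2cb0a205,
helper193@4a1c7c2bb; byte-identical copy of the spec closure).

Proof.  By `NatOpC`, `R(φ♮) Ψ = R(φ) (P_∞ Ψ)`; `P_∞ Ψ = torAvg a D Ψ` is Borel-invariant
(`isBorelInvariantFn_torAvg646`): it is continuous (parametric integral of a jointly continuous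
function over the bounded set `D`, for the finite measure `volume.restrict D` on the compact set
`closure D`; `GL₂(𝔸_K)` is locally compact and second countable by `T1.LocCompC`), the left
invariances pass through the integral, and the ray generator commutes with the central `a t`.
-/

set_option autoImplicit false

open IsDedekindDomain NumberField MeasureTheory

noncomputable section

namespace Fermat.Agent.LT.T7.H646

open Fermat.Agent.LT.H556 Fermat.Agent.LT.H556.A0 Fermat.Agent.LT Fermat.Agent.LT.T7.H193

attribute [local instance] Fermat.Agent.LT.T5.instMeasurableSpaceG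

variable {K : Type} [Field K] [NumberField K]

/-- The mean `P_∞ Ψ` of a continuous function is continuous. -/
theorem continuous_torAvg646 (hLC : T1.LocCompC K) {𝔑 : Ideal (𝓞 K)} {r : G K}
    {a : (InfinitePlace K → ℝ) → G K} {D : Set (InfinitePlace K → ℝ)}
    (hTD : IsTorusData 𝔑 r a D) {Ψ : G K → ℂ} (hΨ : Continuous Ψ) :
    Continuous (torAvg a D Ψ) := by
  obtain ⟨-, hlc, -, hsc⟩ := hLC
  have : LocallyCompactSpace (G K) := hlc
  have : SecondCountableTopology (G K) := hsc
  have hDfin : volume D < ⊤ := hTD.bdd.measure_lt_top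
  have : IsFiniteMeasure (volume.restrict D) := ⟨by
    rw [Measure.restrict_apply_univ]; exact hDfin⟩
  have hcl : IsCompact (closure D) := hTD.bdd.isCompact_closure
  have hunc : Continuous (Function.uncurry fun (g : G K) (t : InfinitePlace K → ℝ) =>
      Ψ (g * a t)) :=
    hΨ.comp (continuous_fst.mul (hTD.cont.comp continuous_snd))
  have h1 : Continuous fun g : G K =>
      ∫ t in closure D, Ψ (g * a t) ∂(volume.restrict D) :=
    continuous_parametric_integral_of_continuous (μ := volume.restrict D) hunc hcl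
  have h2 : (volume.restrict D).restrict (closure D)
      = (volume.restrict D : Measure (InfinitePlace K → ℝ)) := by
    rw [Measure.restrict_restrict isClosed_closure.measurableSet,
      Set.inter_eq_self_of_subset_right subset_closure]
  rw [h2] at h1
  exact continuous_const.mul h1

/-- **`P_∞` preserves the Borel-invariant functions.** -/
theorem isBorelInvariantFn_torAvg646 (hLC : T1.LocCompC K) {𝔑 : Ideal (𝓞 K)} {r : G K}
    {a : (InfinitePlace K → ℝ) → G K} {D : Set (InfinitePlace K → ℝ)}
    (hTD : IsTorusData 𝔑 r a D) {Ψ : G K → ℂ} (hΨ : T5.IsBorelInvariantFn Ψ) :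
    T5.IsBorelInvariantFn (torAvg a D Ψ) := by
  refine ⟨continuous_torAvg646 hLC hTD hΨ.cont, ?_, ?_, ?_⟩
  · intro n x hn g
    unfold torAvg
    congr 1
    refine setIntegral_congr_fun hTD.meas fun t _ => ?_
    show Ψ (n * g * a t) = Ψ (g * a t)
    rw [mul_assoc, hΨ.unip n x hn]
  · intro t a' b ht g
    unfold torAvg
    congr 1
    refine setIntegral_congr_fun hTD.meas fun s _ => ?_
    show Ψ (T5.ratG t * g * a s) = Ψ (g * a s)
    rw [mul_assoc, hΨ.torus t a' b ht]
  · obtain ⟨ρ, hρ, hρinv⟩ := hΨ.ray
    refine ⟨ρ, hρ, fun g => ?_⟩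
    unfold torAvg
    congr 1
    refine setIntegral_congr_fun hTD.meas fun t _ => ?_
    show Ψ (g * ρ * a t) = Ψ (g * a t)
    rw [mul_assoc, ← hTD.central t ρ, ← mul_assoc, hρinv]

/-- **LEAF NAT.4 = NAT-EK** (registry row 2201). -/
theorem natEKC646 (K : Type) [Field K] [NumberField K] : NatEKC K := by
  intro hT1 hOp R hR 𝔑 r a D hTD φ hφc hφs hEK Ψ hΨ x
  rw [hOp hT1 R hR 𝔑 r a D hTD φ hφc hφs Ψ hΨ.cont x]
  exact hEK (torAvg a D Ψ) (isBorelInvariantFn_torAvg646 hT1.locComp hTD hΨ) x

/-- The leaf has EXACTLY the type of the frozen Prop. -/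
example (K : Type) [Field K] [NumberField K] : Fermat.Agent.LT.T7.H193.NatEKC K := natEKC646 K

end Fermat.Agent.LT.T7.H646

end

#print axioms Fermat.Agent.LT.T7.H646.natEKC646
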